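/-
S48 (Deligne-Serre), block BB, sub-block U2 (helper21): the four kinds of point data for the
uniformisation `Psi hL : FB F₀ →ₐ[ℚ̄] LL N` attached to `hL : IsLvl F₀ H N`.
Port of `S24/B/Points.lean`.
-/
import Fermat.Agent.S48.BB.U.Basic
import Fermat.Agent.S24.B.Points

set_option autoImplicit false

noncomputable section

namespace Fermat.Agent.S48.BB.U2

open UpperHalfPlane Filter Topology ModularCurve
open Fermat.Agent.S24 Fermat.Agent.S24.B Fermat.Agent.GAL.Mult Fermat.Agent.S48.BB.U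
open scoped MatrixGroups Real Manifold WithZero

variable {F₀ : IntermediateField ℚ (LaurentSeries ℚ)} {H : Subgroup SL(2, ℤ)} {N : ℕ} [NeZero N]

/-- The Laurent expansion at `τ₀` of an element of `LL N`. -/
def wexpLL (N : ℕ) [NeZero N] (τ₀ : ℍ) : LL N →+* LaurentSeries ℂ :=
  (wexpM τ₀).comp (embL N).toRingHom

theorem wexpLL_apply (τ₀ : ℍ) (g : LL N) : wexpLL N τ₀ g = wexpM τ₀ (embL N g) := rfl

theorem wexpLL_algebraMap_Kbar (τ₀ : ℍ) (a : Kbar) :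
    wexpLL N τ₀ (algebraMap Kbar (LL N) a) = HahnSeries.C (algebraMap Kbar ℂ a) := by
  rw [wexpLL_apply, AlgHom.commutes, wexpM_algebraMap_Kbar]

theorem wexpLL_smul (τ₀ : ℍ) (δ : SL(2, ℤ)) (μ : ℂˣ)
    (hδ : ∀ᶠ w in 𝓝 (0 : ℂ),
      δ⁻¹ • ofComplex (discInv τ₀ w) = ofComplex (discInv τ₀ ((μ : ℂ) * w))) (g : LL N) :
    wexpLL N τ₀ (δ • g) = twist μ (wexpLL N τ₀ g) := by
  rw [wexpLL_apply, wexpLL_apply, embL_smul]
  refine wexpM_smul τ₀ (sl δ) μ ?_ _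
  rw [← map_inv]
  exact hδ

theorem wexpLL_lnToLL (τ₀ : ℍ) (x : LN N) : wexpLL N τ₀ (lnToLL N x) = wexpL N τ₀ x :=
  wexpM_embL_lnToLL τ₀ x

theorem Psi_jB_sub (hL : IsLvl F₀ H N) (c : Kbar) :
    Psi hL (jB hL - algebraMap Kbar (FB F₀) c) =
      lnToLL N (S24.B.Psi N (jF N - algebraMap Kbar (FN N) c)) := by
  rw [map_sub, map_sub, map_sub, Psi_jB, AlgHom.commutes, AlgHom.commutes, AlgHom.commutes]
  rfl

theorem pointDatum_of_fixed (hL : IsLvl F₀ H N) (τ₀ : ℍ) (c : Kbar) (hc : jfun τ₀ = iota c)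
    (δ : SL(2, ℤ)) (E : ℕ) (hE : 0 < E) (μ : ℂˣ) (hμ : IsPrimitiveRoot μ E)
    (hδ : ∀ᶠ w in 𝓝 (0 : ℂ),
      δ⁻¹ • ofComplex (discInv τ₀ w) = ofComplex (discInv τ₀ ((μ : ℂ) * w)))
    (hord : ordAt τ₀ (fun τ => jfun τ - jfun τ₀) = E) :
    IsPointDatum (Psi hL) (jB hL - algebraMap Kbar (FB F₀) c)
      ((lval ℂ).comap (wexpLL N τ₀)) δ E := by
  refine isPointDatum_of_expansion (Psi hL) _ δ E hE (wexpLL N τ₀) (wexpLL_algebraMap_Kbar τ₀) μ hμ
    (wexpLL_smul τ₀ δ μ hδ) ?_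
  rw [Psi_jB_sub, wexpLL_lnToLL, Psi_jF_sub, wexpL_algebraMap]
  apply order_ofPowerSeries
  rw [order_wexp, ← hord]
  congr 1
  funext τ
  show (jd N 1 (one_dvd N)).1 τ - iota c = _
  rw [jd_one_apply, hc]

theorem pointDatum_generic (hL : IsLvl F₀ H N) (c : Kbar) (h0 : c ≠ 0) (h1 : c ≠ 1728) :
    ∃ V : Valuation (LL N) ℤᵐ⁰,
      IsPointDatum (Psi hL) (jB hL - algebraMap Kbar (FB F₀) c) V (1 : SL(2, ℤ)) 1 := by
  obtain ⟨τ₀, hτ₀⟩ := Stubs.jfun_surjective (iota c)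
  refine ⟨_, pointDatum_of_fixed hL τ₀ c hτ₀ 1 1 one_pos 1 IsPrimitiveRoot.one ?_ ?_⟩
  · refine Filter.Eventually.of_forall fun w => ?_
    rw [inv_one, one_smul, Units.val_one, one_mul]
  · rw [Nat.cast_one]
    refine Stubs.ordAt_jfun_generic τ₀ ?_ ?_
    · rw [hτ₀]
      exact fun h => h0 (iota_injective (by rw [h, map_zero]))
    · rw [hτ₀]
      exact fun h => h1 (iota_injective (by rw [h, map_ofNat]))

theorem pointDatum_I (hL : IsLvl F₀ H N) : ∃ V : Valuation (LL N) ℤᵐ⁰,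
    IsPointDatum (Psi hL) (jB hL - algebraMap Kbar (FB F₀) 1728) V ModularGroup.S 2 := by
  refine ⟨_, pointDatum_of_fixed hL UpperHalfPlane.I 1728 ?_ ModularGroup.S 2 two_pos (-1)
    isPrimitiveRoot_neg_one ?_ ?_⟩
  · rw [Stubs.jfun_I, map_ofNat]
  · simpa using S_inv_discInv
  · rw [Stubs.jfun_I]
    exact Stubs.ordAt_jfun_I

theorem pointDatum_rho (hL : IsLvl F₀ H N) : ∃ V : Valuation (LL N) ℤᵐ⁰,
    IsPointDatum (Psi hL) (jB hL - algebraMap Kbar (FB F₀) 0) V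
      (ModularGroup.S * ModularGroup.T) 3 := by
  refine ⟨_, pointDatum_of_fixed hL rho 0 ?_ (ModularGroup.S * ModularGroup.T) 3 (by norm_num)
    (Units.mk0 (rho : ℂ) rho_ne_zero) isPrimitiveRoot_rho ?_ ?_⟩
  · rw [Stubs.jfun_rho, map_zero]
  · exact ST_inv_discInv
  · rw [Stubs.jfun_rho]
    simpa using Stubs.ordAt_jfun_rho

theorem pointDatum_infty (hL : IsLvl F₀ H N) : ∃ V : Valuation (LL N) ℤᵐ⁰,
    IsPointDatum (Psi hL) (jB hL)⁻¹ V ModularGroup.T N := by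
  refine ⟨_, isPointDatum_of_expansion (C := Kbar) (Psi hL) _ ModularGroup.T N
    (Nat.pos_of_ne_zero (NeZero.ne N)) (texpLL N).toRingHom ?_ (zetaK N)⁻¹
    (isPrimitiveRoot_zetaK N).inv texpLL_T_smul ?_⟩
  · intro a
    show texpLL N (algebraMap Kbar (LL N) a) = _
    rw [AlgHom.commutes, ModularCurve.algebraMap_laurentSeries_eq_single]
    rfl
  · show (texpLL N (Psi hL (jB hL)⁻¹)).order = _
    rw [map_inv₀, map_inv₀, texpLL_Psi, coe_jB']
    have h2 : ModularCurve.qExpand Kbar N (Jser 1) ≠ 0 := fun h =>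
      Jser_one_ne_zero (ModularCurve.qExpand_injective (R := Kbar) (N := N) (by rw [h, map_zero]))
    have h3 : (ModularCurve.qExpand Kbar N (Jser 1))⁻¹ ≠ 0 := inv_ne_zero h2
    have h4 := HahnSeries.order_mul h2 h3
    rw [mul_inv_cancel₀ h2, HahnSeries.order_one, order_qExpand, order_Jser_one] at h4
    linarith

end Fermat.Agent.S48.BB.U2

end
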