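/-
S48 (Deligne-Serre), block BB, sub-block U2 (helper21): ramification of `FB F₀` over `ℚ̄(j)` for
`hL : IsLvl F₀ H N`.  Port of `S24/Export/Ramification.lean` and of the `ℚ̄`-part of
`Lib/Hauptmodul/Bar.lean`.

* `ord_jB_sub_eq_one`, `ord_jB_sub_1728_dvd`, `ord_jB_dvd`, `ord_jB_dvd_of_neg`, `jRam hL`;
* `h2B`, `h3B` (for `h2q ∈ F₀`, `h3q ∈ F₀`), `ord_h2B_sub_eq_one`, `ord_h3B_sub_eq_one`.
-/
import Fermat.Agent.S48.BB.U2.Points
import Fermat.Agent.S24.Export.Ramification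
import Fermat.Agent.Lib.Hauptmodul.Bar

set_option autoImplicit false

noncomputable section

namespace Fermat.Agent.S48.BB.U2

open AlgebraicCurve IntermediateField ModularCurve
open Fermat.Agent.S24 Fermat.Agent.S24.FF Fermat.Agent.S24.Export Fermat.Agent.GAL.Mult
  Fermat.Agent.S48.BB.U Fermat.Agent.Lib.Hauptmodul
open scoped MatrixGroups WithZero

variable {F₀ : IntermediateField ℚ (LaurentSeries ℚ)} {H : Subgroup SL(2, ℤ)} {N : ℕ} [NeZero N]

/-- unramified over `j = c`, `c ≠ 0, 1728`. -/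
theorem ord_jB_sub_eq_one (hL : IsLvl F₀ H N) (c : Kbar) (h0 : c ≠ 0) (h1 : c ≠ 1728)
    (v : Place Kbar (FB F₀)) (hv : 0 < v.ord (jB hL - algebraMap Kbar (FB F₀) c)) :
    v.ord (jB hL - algebraMap Kbar (FB F₀) c) = 1 := by
  have := finiteIndex hL
  have := finiteDimensional hL
  obtain ⟨V, hV⟩ := pointDatum_generic hL c h0 h1
  have h := ord_dvd_of_isPointDatum (transcendental_jB hL) (isUniformization hL)
    (adjoin_sub_const _ _) hV v hv
  have h2 := Int.le_of_dvd one_pos (by simpa using h)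
  omega

/-- ramification index `1` or `2` over `j = 1728`. -/
theorem ord_jB_sub_1728_dvd (hL : IsLvl F₀ H N) (v : Place Kbar (FB F₀))
    (hv : 0 < v.ord (jB hL - algebraMap Kbar (FB F₀) 1728)) :
    v.ord (jB hL - algebraMap Kbar (FB F₀) 1728) ∣ 2 := by
  have := finiteIndex hL
  have := finiteDimensional hL
  obtain ⟨V, hV⟩ := pointDatum_I hL
  exact ord_dvd_of_isPointDatum (transcendental_jB hL) (isUniformization hL)
    (adjoin_sub_const _ _) hV v hv

/-- ramification index `1` or `3` over `j = 0`. -/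
theorem ord_jB_dvd (hL : IsLvl F₀ H N) (v : Place Kbar (FB F₀)) (hv : 0 < v.ord (jB hL)) :
    v.ord (jB hL) ∣ 3 := by
  have := finiteIndex hL
  have := finiteDimensional hL
  obtain ⟨V, hV⟩ := pointDatum_rho hL
  have h := ord_dvd_of_isPointDatum (transcendental_jB hL) (isUniformization hL)
    (adjoin_sub_const _ _) hV v (by simpa using hv)
  simpa using h

/-- the ramification index over `j = ∞` divides `N`. -/
theorem ord_jB_dvd_of_neg (hL : IsLvl F₀ H N) (v : Place Kbar (FB F₀)) (hv : v.ord (jB hL) < 0) :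
    v.ord (jB hL) ∣ (N : ℤ) := by
  have := finiteIndex hL
  have := finiteDimensional hL
  obtain ⟨V, hV⟩ := pointDatum_infty hL
  have h := ord_dvd_of_isPointDatum (transcendental_jB hL) (isUniformization hL)
    (adjoin_inv _) hV v (by rw [Place.ord_inv]; omega)
  rw [Place.ord_inv] at h
  exact (neg_dvd).1 h

/-- the abstract ramification data of the `j`-line -/
theorem jRam (hL : IsLvl F₀ H N) : JRam Kbar (jB hL) where
  transc := transcendental_jB hL
  generic := fun c h0 h1 v hv => ord_jB_sub_eq_one hL c h0 h1 v hv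
  at1728 := fun v hv => ord_jB_sub_1728_dvd hL v hv
  at0 := fun v hv => ord_jB_dvd hL v hv

/-! ### The Hauptmoduln `h₂`, `h₃` -/

/-- `h₂` as an element of `FB F₀`. -/
def h2B (h2 : h2q ∈ F₀) : FB F₀ := ofQ ⟨h2q, h2⟩

/-- `h₃` as an element of `FB F₀`. -/
def h3B (h3 : h3q ∈ F₀) : FB F₀ := ofQ ⟨h3q, h3⟩

theorem coe_h2B (h2 : h2q ∈ F₀) :
    ((h2B h2 : FB F₀) : LaurentSeries Kbar) = coeffEmb Kbar h2q := rfl

theorem coe_h3B (h3 : h3q ∈ F₀) :
    ((h3B h3 : FB F₀) : LaurentSeries Kbar) = coeffEmb Kbar h3q := rfl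

theorem coe_h2B' (h2 : h2q ∈ F₀) : ((h2B h2 : FB F₀) : LaurentSeries Kbar) = toL Kbar h2Z := by
  show coeffMap (algebraMap ℚ Kbar) (toL ℚ h2Z) = toL Kbar h2Z
  exact coeffMap_toL _ _

theorem coe_h3B' (h3 : h3q ∈ F₀) : ((h3B h3 : FB F₀) : LaurentSeries Kbar) = toL Kbar h3Z := by
  show coeffMap (algebraMap ℚ Kbar) (toL ℚ h3Z) = toL Kbar h3Z
  exact coeffMap_toL _ _

theorem jB_mul_h2B (hL : IsLvl F₀ H N) (h2 : h2q ∈ F₀) :
    jB hL * h2B h2 = (1 + 256 * h2B h2) ^ 3 := by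
  apply Subtype.ext
  have h := congrArg (coeffEmb Kbar) jq_mul_h2q
  simp only [map_mul, map_pow, map_add, map_one, map_ofNat] at h
  push_cast
  rw [coe_jB, coe_h2B]
  exact h

theorem jB_mul_h3B (hL : IsLvl F₀ H N) (h3 : h3q ∈ F₀) :
    jB hL * h3B h3 = (1 + 27 * h3B h3) * (1 + 243 * h3B h3) ^ 3 := by
  apply Subtype.ext
  have h := congrArg (coeffEmb Kbar) jq_mul_h3q
  simp only [map_mul, map_pow, map_add, map_one, map_ofNat] at h
  push_cast
  rw [coe_jB, coe_h3B]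
  exact h

theorem ord_h2B_sub_eq_one (hL : IsLvl F₀ H N) (h2 : h2q ∈ F₀) (c : Kbar) (h0 : c ≠ 0)
    (h1 : 64 * c + 1 ≠ 0) (v : Place Kbar (FB F₀))
    (hv : 0 < v.ord (h2B h2 - algebraMap Kbar (FB F₀) c)) :
    v.ord (h2B h2 - algebraMap Kbar (FB F₀) c) = 1 :=
  ram2_generic (jRam hL) (jB_mul_h2B hL h2) c h0 h1 v hv

theorem ord_h3B_sub_eq_one (hL : IsLvl F₀ H N) (h3 : h3q ∈ F₀) (c : Kbar) (h0 : c ≠ 0)
    (h1 : 27 * c + 1 ≠ 0) (v : Place Kbar (FB F₀))
    (hv : 0 < v.ord (h3B h3 - algebraMap Kbar (FB F₀) c)) :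
    v.ord (h3B h3 - algebraMap Kbar (FB F₀) c) = 1 :=
  ram3_generic (jRam hL) (jB_mul_h3B hL h3) c h0 h1 v hv

end Fermat.Agent.S48.BB.U2

end
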