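/-
S48 (Deligne-Serre), block BB, sub-block U2 (helper21): horizontal inputs of KL for a general
`hL : IsLvl F₀ H N`, over a subfield `K₀` of `ℚ̄`.  Port of `S18/Descent/JLine.lean` and of
`GAL/KLInputs/HLine.lean` (section `Concrete`).

* `ofQL L f`      : an element of `F₀` as an element of `laurentBaseChange L F₀`; `toBar_ofQL`;
* `isFF1_bar hL`, `isFF1_K₀ hL K₀`;
* `jK hL L`, `h2K h2 L`, `h3K h3 L`, their coefficients, transcendence;
* `unram_jK`, `unram_jK_inv`, `unram_h2K`, `unram_h2K_inv`, `unram_h3K`, `unram_h3K_inv`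
  (`Descent.UnramOutsideVS` with the branch polynomials `gA`, `gB` of `GAL/KLInputs/HLine.lean`).
-/
import Fermat.Agent.S48.BB.U2.Ramification
import Fermat.Agent.GAL.KLInputs.HLine

set_option autoImplicit false

noncomputable section

namespace Fermat.Agent.S48.BB.U2

open AlgebraicCurve ModularCurve Polynomial
open Fermat.Agent.S24 Fermat.Agent.S24.FF Fermat.Agent.S18.Descent Fermat.Agent.GAL.KLInputs
  Fermat.Agent.S48.BB.U Fermat.Agent.Lib.Hauptmodul
open scoped MatrixGroups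

local notation "Qbar" => AlgebraicClosure ℚ

variable {F₀ : IntermediateField ℚ (LaurentSeries ℚ)} {H : Subgroup SL(2, ℤ)} {N : ℕ} [NeZero N]

/-- An element of `F₀` as an element of `laurentBaseChange L F₀`. -/
def ofQL (L : Type*) [Field L] [Algebra ℚ L] (f : F₀) : laurentBaseChange L F₀ :=
  ⟨coeffEmb L f.1, coeffEmb_mem_laurentBaseChange L f.2⟩

theorem coe_ofQL (L : Type*) [Field L] [Algebra ℚ L] (f : F₀) :
    ((ofQL L f : laurentBaseChange L F₀) : LaurentSeries L) = coeffEmb L f.1 := rfl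

theorem baseChangeMap_ofQL {L L' : Type*} [Field L] [Algebra ℚ L] [Field L'] [Algebra ℚ L']
    (φ : L →+* L') (f : F₀) : baseChangeMap F₀ φ (ofQL L f) = ofQL L' f :=
  Subtype.ext (coeffMap_coeffEmb' φ f.1)

theorem ofQL_bar (f : F₀) : (ofQL Qbar f : laurentBaseChange Qbar F₀) = ofQ f := rfl

theorem toBar_ofQL (K₀ : IntermediateField ℚ Qbar) (f : F₀) :
    toBar F₀ K₀ (ofQL K₀ f) = ofQ f :=
  baseChangeMap_ofQL _ f

/-- `FB F₀` is a function field in one variable over `ℚ̄` (in the shape used by `S18/Descent`). -/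
theorem isFF1_bar (hL : IsLvl F₀ H N) : IsFF1 Qbar (laurentBaseChange Qbar F₀) := isFF1 hL

/-- `laurentBaseChange K₀ F₀` is a function field in one variable over `K₀`. -/
theorem isFF1_K₀ (hL : IsLvl F₀ H N) (K₀ : IntermediateField ℚ Qbar) :
    IsFF1 K₀ (laurentBaseChange K₀ F₀) := by
  have := isFF1_bar hL
  obtain ⟨s, hs⟩ := hL.fg
  exact isFF1_of_baseChange (L' := Qbar) s.finite_toSet hs

/-- transcendence descends from `ℚ̄` to `K₀`. -/
theorem transcendental_of_toBar {K₀ : IntermediateField ℚ Qbar} (x : laurentBaseChange K₀ F₀)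
    (hx : Transcendental Qbar (toBar F₀ K₀ x)) : Transcendental K₀ x := by
  intro halg
  obtain ⟨p, hp0, hp⟩ := halg
  apply hx
  refine ⟨p.map (algebraMap K₀ Qbar),
    (Polynomial.map_ne_zero_iff (algebraMap K₀ Qbar).injective).mpr hp0, ?_⟩
  have h := map_aeval_eq (toBar F₀ K₀) (toBar_algebraMap F₀ K₀) x p
  rw [hp, map_zero] at h
  exact h.symm

/-! ### The `j`-line -/

/-- `j` as an element of `laurentBaseChange L F₀`. -/
def jK (hL : IsLvl F₀ H N) (L : Type*) [Field L] [Algebra ℚ L] : laurentBaseChange L F₀ :=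
  ofQL L ⟨jq, hL.j_mem⟩

theorem coe_jK (hL : IsLvl F₀ H N) (L : Type*) [Field L] [Algebra ℚ L] :
    ((jK hL L : laurentBaseChange L F₀) : LaurentSeries L) = jqModC L :=
  coeffEmb_jq L

theorem toBar_jK (hL : IsLvl F₀ H N) (K₀ : IntermediateField ℚ Qbar) :
    toBar F₀ K₀ (jK hL K₀) = jB hL :=
  toBar_ofQL K₀ _

theorem transcendental_jK (hL : IsLvl F₀ H N) (K₀ : IntermediateField ℚ Qbar) :
    Transcendental K₀ (jK hL K₀) :=
  transcendental_of_toBar _ (by rw [toBar_jK]; exact transcendental_jB hL)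

theorem finiteDimensional_jK (hL : IsLvl F₀ H N) (K₀ : IntermediateField ℚ Qbar) :
    FiniteDimensional (IntermediateField.adjoin K₀ {jK hL K₀}) (laurentBaseChange K₀ F₀) :=
  have := isFF1_K₀ hL K₀
  IsFF1.finite _ (transcendental_jK hL K₀)

/-- the ramification of `j⁻¹`, in the shape of `unramOutsideVS_gA`, `unramOutsideVS_gB`. -/
theorem ord_jK_inv (hL : IsLvl F₀ H N) (K₀ : IntermediateField ℚ Qbar) (c : Qbar) (h0 : c ≠ 0)
    (h1 : ((-1728 : ℤ) : Qbar) * c + 1 ≠ 0) (v : Place Qbar (laurentBaseChange Qbar F₀))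
    (hv : 0 < v.ord (toBar F₀ K₀ (jK hL K₀)⁻¹ -
      algebraMap Qbar (laurentBaseChange Qbar F₀) c)) :
    v.ord (toBar F₀ K₀ (jK hL K₀)⁻¹ - algebraMap Qbar (laurentBaseChange Qbar F₀) c) = 1 := by
  rw [map_inv₀, toBar_jK] at hv ⊢
  have e := GAL.KLInputs.ord_inv_sub_eq v _ c h0 hv
  rw [e] at hv ⊢
  refine ord_jB_sub_eq_one hL c⁻¹ (inv_ne_zero h0) ?_ v hv
  intro h
  apply h1
  have hc : c = (1728 : Qbar)⁻¹ := by rw [← h, inv_inv]
  rw [hc]
  push_cast
  norm_num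

theorem unram_jK (hL : IsLvl F₀ H N) (K₀ : IntermediateField ℚ Qbar) :
    UnramOutsideVS K₀ (jK hL K₀) ((gB (-1728)).map (Int.castRingHom K₀)) := by
  have := isFF1_bar hL
  have := isFF1_K₀ hL K₀
  have h := unramOutsideVS_gB (jK hL K₀)⁻¹ (transcendental_inv (transcendental_jK hL K₀)) (-1728)
    (ord_jK_inv hL K₀)
  rwa [inv_inv] at h

theorem unram_jK_inv (hL : IsLvl F₀ H N) (K₀ : IntermediateField ℚ Qbar) :
    UnramOutsideVS K₀ (jK hL K₀)⁻¹ ((gA (-1728)).map (Int.castRingHom K₀)) :=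
  have := isFF1_bar hL
  have := isFF1_K₀ hL K₀
  unramOutsideVS_gA (jK hL K₀)⁻¹ (transcendental_inv (transcendental_jK hL K₀)) (-1728)
    (ord_jK_inv hL K₀)

/-! ### The `h₂`-line and the `h₃`-line -/

/-- `h₂` as an element of `laurentBaseChange L F₀`. -/
def h2K (h2 : h2q ∈ F₀) (L : Type*) [Field L] [Algebra ℚ L] : laurentBaseChange L F₀ :=
  ofQL L ⟨h2q, h2⟩

/-- `h₃` as an element of `laurentBaseChange L F₀`. -/
def h3K (h3 : h3q ∈ F₀) (L : Type*) [Field L] [Algebra ℚ L] : laurentBaseChange L F₀ :=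
  ofQL L ⟨h3q, h3⟩

theorem coe_h2K (h2 : h2q ∈ F₀) (L : Type*) [Field L] [Algebra ℚ L] :
    ((h2K h2 L : laurentBaseChange L F₀) : LaurentSeries L) = toL L h2Z :=
  coeffMap_toL _ _

theorem coe_h3K (h3 : h3q ∈ F₀) (L : Type*) [Field L] [Algebra ℚ L] :
    ((h3K h3 L : laurentBaseChange L F₀) : LaurentSeries L) = toL L h3Z :=
  coeffMap_toL _ _

theorem toBar_h2K (h2 : h2q ∈ F₀) (K₀ : IntermediateField ℚ Qbar) :
    toBar F₀ K₀ (h2K h2 K₀) = h2B h2 :=
  toBar_ofQL K₀ _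

theorem toBar_h3K (h3 : h3q ∈ F₀) (K₀ : IntermediateField ℚ Qbar) :
    toBar F₀ K₀ (h3K h3 K₀) = h3B h3 :=
  toBar_ofQL K₀ _

theorem transcendental_h2K (h2 : h2q ∈ F₀) (L : Type*) [Field L] [Algebra ℚ L] :
    Transcendental L (h2K h2 L) :=
  transcendental_of_coe _ (by
    rw [coe_h2K]
    exact transcendental_toL_X_mul L u2Z constantCoeff_u2Z)

theorem transcendental_h3K (h3 : h3q ∈ F₀) (L : Type*) [Field L] [Algebra ℚ L] :
    Transcendental L (h3K h3 L) :=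
  transcendental_of_coe _ (by
    rw [coe_h3K]
    exact transcendental_toL_X_mul L u3Z constantCoeff_u3Z)

theorem unram_h2K (hL : IsLvl F₀ H N) (h2 : h2q ∈ F₀) (K₀ : IntermediateField ℚ Qbar) :
    UnramOutsideVS K₀ (h2K h2 K₀) ((gA 64).map (Int.castRingHom K₀)) := by
  have := isFF1_bar hL
  have := isFF1_K₀ hL K₀
  refine unramOutsideVS_gA _ (transcendental_h2K h2 K₀) 64 ?_
  intro c h0 h1 v hv
  rw [toBar_h2K] at hv ⊢
  exact ord_h2B_sub_eq_one hL h2 c h0 (by exact_mod_cast h1) v hv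

theorem unram_h2K_inv (hL : IsLvl F₀ H N) (h2 : h2q ∈ F₀) (K₀ : IntermediateField ℚ Qbar) :
    UnramOutsideVS K₀ (h2K h2 K₀)⁻¹ ((gB 64).map (Int.castRingHom K₀)) := by
  have := isFF1_bar hL
  have := isFF1_K₀ hL K₀
  refine unramOutsideVS_gB _ (transcendental_h2K h2 K₀) 64 ?_
  intro c h0 h1 v hv
  rw [toBar_h2K] at hv ⊢
  exact ord_h2B_sub_eq_one hL h2 c h0 (by exact_mod_cast h1) v hv

theorem unram_h3K (hL : IsLvl F₀ H N) (h3 : h3q ∈ F₀) (K₀ : IntermediateField ℚ Qbar) :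
    UnramOutsideVS K₀ (h3K h3 K₀) ((gA 27).map (Int.castRingHom K₀)) := by
  have := isFF1_bar hL
  have := isFF1_K₀ hL K₀
  refine unramOutsideVS_gA _ (transcendental_h3K h3 K₀) 27 ?_
  intro c h0 h1 v hv
  rw [toBar_h3K] at hv ⊢
  exact ord_h3B_sub_eq_one hL h3 c h0 (by exact_mod_cast h1) v hv

theorem unram_h3K_inv (hL : IsLvl F₀ H N) (h3 : h3q ∈ F₀) (K₀ : IntermediateField ℚ Qbar) :
    UnramOutsideVS K₀ (h3K h3 K₀)⁻¹ ((gB 27).map (Int.castRingHom K₀)) := by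
  have := isFF1_bar hL
  have := isFF1_K₀ hL K₀
  refine unramOutsideVS_gB _ (transcendental_h3K h3 K₀) 27 ?_
  intro c h0 h1 v hv
  rw [toBar_h3K] at hv ⊢
  exact ord_h3B_sub_eq_one hL h3 c h0 (by exact_mod_cast h1) v hv

/-! ### Membership for the concrete fields `F1Q M r` -/

theorem h2q_mem_F1Q (M r : ℕ) [NeZero (M * r)] (h : 2 ∣ M * r) : h2q ∈ F1Q M r :=
  (le_sup_right : modularFunctionFieldFull (M * r) ≤ F1Q M r) (full_degeneracy_le h h2q_mem)

theorem h3q_mem_F1Q (M r : ℕ) [NeZero (M * r)] (h : 3 ∣ M * r) : h3q ∈ F1Q M r :=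
  (le_sup_right : modularFunctionFieldFull (M * r) ≤ F1Q M r) (full_degeneracy_le h h3q_mem)

end Fermat.Agent.S48.BB.U2

end
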